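/-
PROJECT P (S44), brick [EXIT] (helper25): from a Tate vector of level `M` whose level-`p`
component is a joint eigenvector of the `T_l`, `l ∉ S`, with the `a_l` of an integral model of the
Frey curve, to the Prelude literal `FreyPackage.ModularRepOfLevel M`.

Stock: `S30.Final.TateCompare.h3_of_phiDict` (`T_p J₀(M) = ℤ_p ⊗ Hom_par(Γ₀(M), ℤ)`, Hecke
equivariantly, as in `S32.TateHecke.hasTheta`), `S41.LiftAbs.exists_lift` (Deligne-Serre on a
lattice with a commuting family), `S41.Forms.exists_eigenform_of_eigenvector`.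
-/
import Fermat.Agent.S32.TateHecke
import Fermat.Agent.S41.LiftAbs
import Fermat.Agent.S41.Forms
import Fermat.Prelude.Def_FLTPrelim_ModularRep

set_option autoImplicit false
set_option linter.unusedSectionVars false
set_option linter.style.haveILetI false

noncomputable section

namespace Fermat.Agent.S44.Exit.Old

open scoped TensorProduct
open ModularCurve ModularCurve.Period CongruenceSubgroup
open Fermat.Agent.S30.Padic.TateModule
open Fermat.Agent.S41.CongModule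

/-! ### Part A: integral approximation in `ℤ_[p] ⊗ L` -/

section Approx

variable {L : Type*} [AddCommGroup L] [Module.Free ℤ L] [Module.Finite ℤ L]
variable (p : ℕ) [Fact p.Prime]

/-- every `p`-adic integer is congruent to a rational integer modulo `p` -/
theorem exists_int_sub_eq (c : ℤ_[p]) : ∃ (n : ℤ) (d : ℤ_[p]), (n : ℤ_[p]) - c = (p : ℤ_[p]) * d := by
  have h := PadicInt.appr_spec 1 c
  rw [pow_one, Ideal.mem_span_singleton'] at h
  obtain ⟨d, hd⟩ := h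
  refine ⟨(c.appr 1 : ℕ), -d, ?_⟩
  rw [Int.cast_natCast, mul_neg, ← mul_comm d, hd]
  ring

/-- every vector of `ℤ_[p] ⊗ L` is congruent modulo `p` to a vector of the lattice `L` -/
theorem exists_lattice_approx (v : ℤ_[p] ⊗[ℤ] L) :
    ∃ (u : L) (z : ℤ_[p] ⊗[ℤ] L), (1 : ℤ_[p]) ⊗ₜ[ℤ] u - v = (p : ℤ_[p]) • z := by
  classical
  set b := Module.Free.chooseBasis ℤ L with hb
  set bV := b.baseChange ℤ_[p] with hbV
  choose n d hnd using fun i => exists_int_sub_eq p (bV.repr v i)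
  refine ⟨∑ i, n i • b i, ∑ i, d i • bV i, ?_⟩
  have h1 : (1 : ℤ_[p]) ⊗ₜ[ℤ] (∑ i, n i • b i) = ∑ i, (n i : ℤ_[p]) • bV i := by
    rw [TensorProduct.tmul_sum]
    refine Finset.sum_congr rfl fun i _ => ?_
    rw [hbV, Module.Basis.baseChange_apply, TensorProduct.tmul_smul, ← Int.cast_smul_eq_zsmul ℤ_[p]]
  have h2 : v = ∑ i, bV.repr v i • bV i := (bV.sum_repr v).symm
  rw [h1, Finset.smul_sum]
  conv_lhs => rw [h2]
  rw [← Finset.sum_sub_distrib]
  refine Finset.sum_congr rfl fun i _ => ?_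
  rw [← sub_smul, hnd i, mul_smul]

/-- a lattice vector which is divisible by `p` in `ℤ_[p] ⊗ L` is divisible by `p` in `L` -/
theorem inP_of_tmul_eq (w : L) (z : ℤ_[p] ⊗[ℤ] L)
    (h : (1 : ℤ_[p]) ⊗ₜ[ℤ] w = (p : ℤ_[p]) • z) : InP p w := by
  classical
  set b := Module.Free.chooseBasis ℤ L with hb
  set bV := b.baseChange ℤ_[p] with hbV
  have hcoord : ∀ i, (p : ℤ) ∣ b.repr w i := by
    intro i
    have h1 : bV.repr ((1 : ℤ_[p]) ⊗ₜ[ℤ] w) i = ((b.repr w i : ℤ) : ℤ_[p]) := by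
      rw [hbV, Module.Basis.baseChange_repr_tmul]
      simp
    have h2 : bV.repr ((p : ℤ_[p]) • z) i = (p : ℤ_[p]) * bV.repr z i := by
      rw [map_smul, Finsupp.smul_apply, smul_eq_mul]
    rw [h, h2] at h1
    have h3 := congrArg (PadicInt.toZMod (p := p)) h1
    rw [map_mul, map_natCast, ZMod.natCast_self, zero_mul, map_intCast] at h3
    exact (ZMod.intCast_zmod_eq_zero_iff_dvd _ _).1 h3.symm
  choose m hm using hcoord
  refine ⟨∑ i, m i • b i, ?_⟩
  rw [Finset.smul_sum]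
  conv_lhs => rw [← b.sum_repr w]
  refine Finset.sum_congr rfl fun i _ => ?_
  rw [hm i, mul_smul]

end Approx

/-! ### Part B: from a Tate vector to a lattice vector -/

section Tate

variable (p : ℕ) [Fact p.Prime] (M : ℕ) [NeZero M]

/-- the Betti lattice of level `M` -/
abbrev Lat := parabolicHoms ℤ (Gamma0 M) ℤ

/-- `T_p J₀(M) = ℤ_p ⊗ Hom_par(Γ₀(M), ℤ)`, Hecke equivariantly (the first lines of
`S32.TateHecke.hasTheta`). -/
theorem exists_tate_equiv :
    ∃ e : Tp p (JZero M) ≃ₗ[ℤ_[p]] ℤ_[p] ⊗[ℤ] (Lat M),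
      ∀ (r : Nat.Primes) (x : Tp p (JZero M)),
        e (Tp.mapEnd (Fermat.Agent.S30.Final.Chain.heckeEnd M r) x) =
          (Fermat.Agent.S30.Hecke.Parabolic.tauPar ℤ ℤ M r r.2).baseChange ℤ_[p] (e x) := by
  obtain ⟨ι⟩ := Fermat.Agent.S30.Descent.PhiDictThm.nonempty_ringHom
  have h : Fermat.Agent.S30.Spec.PhiDict M ι := Fermat.Agent.S30.Descent.PhiDictThm.phiDict M ι
  exact Fermat.Agent.S30.Final.TateCompare.h3_of_phiDict (h := h) p
    (Fermat.Agent.S30.frickeChar M)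
    (fun r => Fermat.Agent.S30.Padic.TateChar.tauChar M r r.2)
    (Fermat.Agent.S30.frickeChar_hecke M h)
    (fun r => Fermat.Agent.S30.Hecke.Parabolic.tauPar ℤ ℤ M r r.2)
    (Fermat.Agent.S30.Padic.TateChar.tateLattice M p)
    (fun r x => Fermat.Agent.S30.Padic.TateChar.tateLattice_tauChar p M r r.2 x)

/-- **From a Tate vector to the lattice.**  A Tate vector `x` whose level-`p` component is non-zero
and is an eigenvector of the `T_l`, `l ∈ good`, with integral eigenvalues `a l`, gives a lattice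
vector `u ∉ p Lat` with `τ_l u ≡ a_l u` modulo `p Lat`. -/
theorem exists_lattice_eigenvector (x : Tp p (JZero M)) (hx : x.1 1 ≠ 0)
    (good : Set ℕ) (a : ℕ → ℤ)
    (heig : ∀ (l : ℕ) (hl : l.Prime), l ∈ good →
      heckeOperatorBar M ⟨l, hl⟩ (x.1 1) = a l • x.1 1) :
    ∃ u : Lat M, ¬ InP p u ∧ ∀ (l : ℕ) (hl : l.Prime), l ∈ good →
      InP p (Fermat.Agent.S30.Hecke.Parabolic.tauPar ℤ ℤ M l hl u - a l • u) := by
  obtain ⟨e, he⟩ := exists_tate_equiv p M
  obtain ⟨u, z, huz⟩ := exists_lattice_approx p (e x)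
  have hu1 : (1 : ℤ_[p]) ⊗ₜ[ℤ] u = e x + (p : ℤ_[p]) • z := by rw [← huz]; abel
  refine ⟨u, ?_, ?_⟩
  · rintro ⟨u', hu'⟩
    apply hx
    -- `e x = p • (1 ⊗ u' - z)`
    have h1 : e x = (p : ℤ_[p]) • ((1 : ℤ_[p]) ⊗ₜ[ℤ] u' - z) := by
      have h2 : (1 : ℤ_[p]) ⊗ₜ[ℤ] u = (p : ℤ_[p]) • ((1 : ℤ_[p]) ⊗ₜ[ℤ] u') := by
        rw [hu', TensorProduct.tmul_smul, ← Int.cast_smul_eq_zsmul ℤ_[p], Int.cast_natCast]
      rw [smul_sub, ← h2, hu1]; abel
    have h3 : x = (p : ℤ_[p]) • e.symm ((1 : ℤ_[p]) ⊗ₜ[ℤ] u' - z) := by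
      apply e.injective
      rw [map_smul, LinearEquiv.apply_symm_apply, h1]
    rw [h3, Tp.coe_natCast_smul_apply]
    have := Tp.pow_smul_apply (e.symm ((1 : ℤ_[p]) ⊗ₜ[ℤ] u' - z)) 1
    rwa [pow_one] at this
  · intro l hl hlg
    set τ := Fermat.Agent.S30.Hecke.Parabolic.tauPar ℤ ℤ M l hl with hτ
    -- the Tate vector `t = T_l x - a_l x` vanishes at level `p`
    set t : Tp p (JZero M) :=
      Tp.mapEnd (Fermat.Agent.S30.Final.Chain.heckeEnd M ⟨l, hl⟩) x - ((a l : ℤ) : ℤ_[p]) • x with ht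
    have ht1 : t.1 1 = 0 := by
      rw [ht, Tp.coe_sub_apply, Tp.coe_mapEnd_apply, Tp.coe_intCast_smul_apply,
        Fermat.Agent.S30.Final.Chain.heckeEnd_apply, heig l hl hlg, sub_self]
    obtain ⟨t', ht'⟩ := Tp.exists_eq_pow_smul t 1 ht1
    rw [pow_one] at ht'
    have h1 : τ.baseChange ℤ_[p] (e x) - ((a l : ℤ) : ℤ_[p]) • e x = (p : ℤ_[p]) • e t' := by
      have := congrArg e ht'
      rw [map_smul] at this
      rw [← this, ht, map_sub, map_smul, he ⟨l, hl⟩ x]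
    -- transport to `1 ⊗ u`
    have h2 : (1 : ℤ_[p]) ⊗ₜ[ℤ] (τ u - a l • u) =
        τ.baseChange ℤ_[p] ((1 : ℤ_[p]) ⊗ₜ[ℤ] u) - ((a l : ℤ) : ℤ_[p]) • ((1 : ℤ_[p]) ⊗ₜ[ℤ] u) := by
      rw [TensorProduct.tmul_sub, LinearMap.baseChange_tmul, TensorProduct.tmul_smul,
        Int.cast_smul_eq_zsmul]
    have h3 : (1 : ℤ_[p]) ⊗ₜ[ℤ] (τ u - a l • u) =
        (p : ℤ_[p]) • (e t' + (τ.baseChange ℤ_[p] z - ((a l : ℤ) : ℤ_[p]) • z)) := by
      rw [h2, hu1, map_add, map_smul, smul_add, smul_add, smul_sub, ← h1, smul_comm _ (p : ℤ_[p]) z]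
      abel
    exact inP_of_tmul_eq p _ _ h3

end Tate

/-! ### Part C: the exit -/

section Exit

local notation "Zb" => integralClosure ℤ ℂ

/-- **EXIT.**  A Tate vector of level `M` whose level-`p` component is a non-zero joint eigenvector
of the `T_l`, `l ∉ S`, with the `a_l` of an integral model `W` of the Frey curve: the Frey
representation is modular of level `M`. -/
theorem modularRepOfLevel_of_tate (P : FreyPackage) [Fact P.p.Prime] {M : ℕ} [NeZero M]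
    (W : WeierstrassCurve ℤ) (hW : W.IsIntegralModelOf P.freyCurve) (S : Finset ℕ)
    (hS : ∀ l ∈ S, l = P.p ∨ l ∣ M ∨ ¬ W.IsGoodPrimeFor l)
    (x : Tp P.p (JZero M)) (hx : x.1 1 ≠ 0)
    (heig : ∀ (l : ℕ) (hl : l.Prime), l ∉ S →
      heckeOperatorBar M ⟨l, hl⟩ (x.1 1) = (W.apOfModel l) • x.1 1) :
    P.ModularRepOfLevel M := by
  classical
  obtain ⟨u, hu, hueig⟩ := exists_lattice_eigenvector P.p M x hx {l | l ∉ S}
    (fun l => W.apOfModel l) heig
  -- Deligne-Serre on the lattice, for the family of all `τ_r`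
  obtain ⟨w, ϑ, 𝔪', hw, -, hmax, hpm, hweig, hcong⟩ :=
    Fermat.Agent.S41.LiftAbs.exists_lift (M' := Lat M) (⊤ : Submodule ℤ (Lat M)) P.p P.pp
      (J := Nat.Primes) (fun r => Fermat.Agent.S30.Hecke.Parabolic.tauPar ℤ ℤ M r r.2)
      (fun j k y => Fermat.Agent.S41.Forms.tauPar_comm M j.2 k.2 y)
      (fun _ _ _ => Submodule.mem_top) {r | (r : ℕ) ∉ S} (fun r => W.apOfModel r)
      u Submodule.mem_top hu
      (fun j hj => by
        obtain ⟨z, hz⟩ := hueig j j.2 hj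
        exact ⟨z, Submodule.mem_top, hz⟩)
  -- the eigenform
  set θ : ℕ → ℂ := fun r => if hr : r.Prime then ((ϑ ⟨r, hr⟩ : Zb) : ℂ) else 0 with hθ
  have hθp : ∀ (r : ℕ) (hr : r.Prime), θ r = ((ϑ ⟨r, hr⟩ : Zb) : ℂ) := fun r hr => dif_pos hr
  obtain ⟨g, hg, hcoef⟩ := Fermat.Agent.S41.Forms.exists_eigenform_of_eigenvector M w hw θ
    (fun r hr => by rw [hθp r hr]; exact hweig ⟨r, hr⟩)
  refine ⟨g, W, 𝔪', hg, hW, hmax, hpm, fun ℓ hℓ hgood hℓM hℓp => ?_⟩
  have hℓS : ℓ ∉ S := by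
    intro hmem
    rcases hS ℓ hmem with h | h | h
    · exact hℓp h
    · exact hℓM h
    · exact h hgood
  refine ⟨ϑ ⟨ℓ, hℓ⟩, ?_, hcong ⟨ℓ, hℓ⟩ hℓS⟩
  rw [hcoef ℓ hℓ, hθp ℓ hℓ]

/-- The same with the eigenvector as the primary datum and its Tate lift as a hypothesis. -/
theorem modularRepOfLevel_of_eigenvector (P : FreyPackage) [Fact P.p.Prime] {M : ℕ} [NeZero M]
    (W : WeierstrassCurve ℤ) (hW : W.IsIntegralModelOf P.freyCurve) (S : Finset ℕ)
    (hS : ∀ l ∈ S, l = P.p ∨ l ∣ M ∨ ¬ W.IsGoodPrimeFor l)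
    (y : JZero M) (hy : y ≠ 0) (hlift : ∃ x : Tp P.p (JZero M), x.1 1 = y)
    (heig : ∀ (l : ℕ) (hl : l.Prime), l ∉ S →
      heckeOperatorBar M ⟨l, hl⟩ y = (W.apOfModel l) • y) :
    P.ModularRepOfLevel M := by
  obtain ⟨x, rfl⟩ := hlift
  exact modularRepOfLevel_of_tate P W hW S hS x hy heig

end Exit

end Fermat.Agent.S44.Exit.Old

end
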