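/-
PROJECT P (S44), brick [EXIT], second file (helper25): the exit in the binder shape of
`FreyPackage.ModularRepOfLevel` (no auxiliary finite set of primes), and the `p`-old case of the top
logic: if a degeneracy push-forward `JZero (M * p) →+ JZero M` does not kill the level-`p` component
of a Tate eigenvector of level `M * p`, the Frey representation is modular of level `M`.
-/
import Fermat.Agent.S44.Exit.Old
import Fermat.Agent.S35.DegeneracyHecke

set_option autoImplicit false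
set_option linter.unusedSectionVars false
set_option linter.style.haveILetI false

noncomputable section

namespace Fermat.Agent.S44.Exit.PushOld

open scoped TensorProduct
open ModularCurve ModularCurve.Period CongruenceSubgroup
open Fermat.Agent.S30.Padic.TateModule
open Fermat.Agent.S41.CongModule
open Fermat.Agent.S44.Exit.Old

local notation "Zb" => integralClosure ℤ ℂ

/-- **EXIT, in the binder shape of the Prelude literal.**  The eigen-relations are asked exactly at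
the primes `l` which are good for `W`, do not divide `M` and differ from `p`. -/
theorem modularRepOfLevel_of_tate_good (P : FreyPackage) [Fact P.p.Prime] {M : ℕ} [NeZero M]
    (W : WeierstrassCurve ℤ) (hW : W.IsIntegralModelOf P.freyCurve)
    (x : Tp P.p (JZero M)) (hx : x.1 1 ≠ 0)
    (heig : ∀ (l : ℕ) (hl : l.Prime), W.IsGoodPrimeFor l → ¬ l ∣ M → l ≠ P.p →
      heckeOperatorBar M ⟨l, hl⟩ (x.1 1) = (W.apOfModel l) • x.1 1) :
    P.ModularRepOfLevel M := by
  classical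
  obtain ⟨u, hu, hueig⟩ := exists_lattice_eigenvector P.p M x hx
    {l | W.IsGoodPrimeFor l ∧ ¬ l ∣ M ∧ l ≠ P.p} (fun l => W.apOfModel l)
    (fun l hl hlg => heig l hl hlg.1 hlg.2.1 hlg.2.2)
  obtain ⟨w, ϑ, 𝔪', hw, -, hmax, hpm, hweig, hcong⟩ :=
    Fermat.Agent.S41.LiftAbs.exists_lift (M' := Lat M) (⊤ : Submodule ℤ (Lat M)) P.p P.pp
      (J := Nat.Primes) (fun r => Fermat.Agent.S30.Hecke.Parabolic.tauPar ℤ ℤ M r r.2)
      (fun j k y => Fermat.Agent.S41.Forms.tauPar_comm M j.2 k.2 y)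
      (fun _ _ _ => Submodule.mem_top)
      {r | W.IsGoodPrimeFor (r : ℕ) ∧ ¬ (r : ℕ) ∣ M ∧ (r : ℕ) ≠ P.p} (fun r => W.apOfModel r)
      u Submodule.mem_top hu
      (fun j hj => by
        obtain ⟨z, hz⟩ := hueig j j.2 hj
        exact ⟨z, Submodule.mem_top, hz⟩)
  set θ : ℕ → ℂ := fun r => if hr : r.Prime then ((ϑ ⟨r, hr⟩ : Zb) : ℂ) else 0 with hθ
  have hθp : ∀ (r : ℕ) (hr : r.Prime), θ r = ((ϑ ⟨r, hr⟩ : Zb) : ℂ) := fun r hr => dif_pos hr
  obtain ⟨g, hg, hcoef⟩ := Fermat.Agent.S41.Forms.exists_eigenform_of_eigenvector M w hw θ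
    (fun r hr => by rw [hθp r hr]; exact hweig ⟨r, hr⟩)
  refine ⟨g, W, 𝔪', hg, hW, hmax, hpm, fun ℓ hℓ hgood hℓM hℓp => ?_⟩
  refine ⟨ϑ ⟨ℓ, hℓ⟩, ?_, hcong ⟨ℓ, hℓ⟩ ⟨hgood, hℓM, hℓp⟩⟩
  rw [hcoef ℓ hℓ, hθp ℓ hℓ]

/-- **The `p`-old case, abstract form.**  `g : JZero (M * p) →+ JZero M` commutes with the `T_r`,
`r ≠ p`, `r ∤ M`; `w` a Tate vector of level `M * p` whose level-`p` component is an eigenvector
with the `a_l` of `W`; if `g` does not kill that component, the Frey representation is modular of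
level `M`. -/
theorem modularRepOfLevel_of_push (P : FreyPackage) [Fact P.p.Prime] {M : ℕ} [NeZero M]
    [NeZero (M * P.p)] (W : WeierstrassCurve ℤ) (hW : W.IsIntegralModelOf P.freyCurve)
    (g : JZero (M * P.p) →+ JZero M)
    (hg : ∀ r : Nat.Primes, P.p ≠ (r : ℕ) → ¬ (r : ℕ) ∣ M → ∀ y : JZero (M * P.p),
      g (heckeOperatorBar (M * P.p) r y) = heckeOperatorBar M r (g y))
    (w : Tp P.p (JZero (M * P.p)))
    (heig : ∀ (l : ℕ) (hl : l.Prime), W.IsGoodPrimeFor l → ¬ l ∣ M * P.p → l ≠ P.p →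
      heckeOperatorBar (M * P.p) ⟨l, hl⟩ (w.1 1) = (W.apOfModel l) • w.1 1)
    (hne : g (w.1 1) ≠ 0) :
    P.ModularRepOfLevel M := by
  refine modularRepOfLevel_of_tate_good P W hW (Tp.map g w) hne fun l hl hgood hlM hlp => ?_
  have hlMp : ¬ l ∣ M * P.p := by
    intro hd
    rcases (Nat.Prime.dvd_mul hl).1 hd with h | h
    · exact hlM h
    · exact hlp ((Nat.prime_dvd_prime_iff_eq hl P.pp).1 h)
  show heckeOperatorBar M ⟨l, hl⟩ (g (w.1 1)) = W.apOfModel l • g (w.1 1)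
  rw [← hg ⟨l, hl⟩ (fun h => hlp h.symm) hlM, heig l hl hgood hlMp hlp, map_zsmul]

/-- **The `p`-old case for `(α_p)_*`.** -/
theorem modularRepOfLevel_of_alphaPush (P : FreyPackage) [Fact P.p.Prime] {M : ℕ} [NeZero M]
    [NeZero P.p] [NeZero (M * P.p)] (hpM : ¬ P.p ∣ M)
    (W : WeierstrassCurve ℤ) (hW : W.IsIntegralModelOf P.freyCurve)
    (w : Tp P.p (JZero (M * P.p)))
    (heig : ∀ (l : ℕ) (hl : l.Prime), W.IsGoodPrimeFor l → ¬ l ∣ M * P.p → l ≠ P.p →
      heckeOperatorBar (M * P.p) ⟨l, hl⟩ (w.1 1) = (W.apOfModel l) • w.1 1)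
    (hne : Fermat.Agent.S35.DegeneracyHecke.alphaPush M P.p (w.1 1) ≠ 0) :
    P.ModularRepOfLevel M :=
  modularRepOfLevel_of_push P W hW (Fermat.Agent.S35.DegeneracyHecke.alphaPush M P.p)
    (fun r hpr hrM y =>
      Fermat.Agent.S35.DegeneracyHecke.alphaPush_hecke P.pp hpM r hpr hrM y) w heig hne

/-- **The `p`-old case for `(β_p)_*`.** -/
theorem modularRepOfLevel_of_betaPush (P : FreyPackage) [Fact P.p.Prime] {M : ℕ} [NeZero M]
    [NeZero P.p] [NeZero (M * P.p)] (hpM : ¬ P.p ∣ M)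
    (W : WeierstrassCurve ℤ) (hW : W.IsIntegralModelOf P.freyCurve)
    (w : Tp P.p (JZero (M * P.p)))
    (heig : ∀ (l : ℕ) (hl : l.Prime), W.IsGoodPrimeFor l → ¬ l ∣ M * P.p → l ≠ P.p →
      heckeOperatorBar (M * P.p) ⟨l, hl⟩ (w.1 1) = (W.apOfModel l) • w.1 1)
    (hne : Fermat.Agent.S35.DegeneracyHecke.betaPush M P.p (w.1 1) ≠ 0) :
    P.ModularRepOfLevel M :=
  modularRepOfLevel_of_push P W hW (Fermat.Agent.S35.DegeneracyHecke.betaPush M P.p)
    (fun r hpr hrM y =>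
      Fermat.Agent.S35.DegeneracyHecke.betaPush_hecke P.pp hpM r hpr hrM y) w heig hne

end Fermat.Agent.S44.Exit.PushOld

end
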